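import Fermat.Agent.AVn.Defs

/-!
# Fields of definition of points
-/

set_option autoImplicit false

universe u

open IntermediateField

noncomputable section

namespace Fermat.Agent.AVn.AVar

variable {K : Type u} [Field K] {g : ℕ} (A : AVar K g)

section Fd

variable {Ω Ω' : Type u} [Field Ω] [Algebra K Ω] [Field Ω'] [Algebra K Ω']

theorem fd_le {z : A.Pt Ω} {k : IntermediateField K Ω} (z' : A.Pt k) (h : A.map k.val z' = z) :
    A.fd z ≤ k := (A.fd_le_iff z k).mpr ⟨z', h⟩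

/-- `z` comes from its field of definition -/
theorem exists_fd (z : A.Pt Ω) {k : IntermediateField K Ω} (h : A.fd z ≤ k) :
    ∃ z' : A.Pt k, A.map k.val z' = z := (A.fd_le_iff z k).mp h

theorem fd_add_le (x y : A.Pt Ω) : A.fd (x + y) ≤ A.fd x ⊔ A.fd y := by
  obtain ⟨x', hx⟩ := A.exists_fd x (le_sup_left : A.fd x ≤ A.fd x ⊔ A.fd y)
  obtain ⟨y', hy⟩ := A.exists_fd y (le_sup_right : A.fd y ≤ A.fd x ⊔ A.fd y)
  exact A.fd_le (x' + y') (by rw [A.map_add, hx, hy])

theorem fd_add_le' {x y : A.Pt Ω} {k : IntermediateField K Ω} (hx : A.fd x ≤ k)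
    (hy : A.fd y ≤ k) : A.fd (x + y) ≤ k := (A.fd_add_le x y).trans (sup_le hx hy)

theorem fd_neg_le (x : A.Pt Ω) : A.fd (-x) ≤ A.fd x := by
  obtain ⟨x', hx⟩ := A.exists_fd x le_rfl
  exact A.fd_le (-x') (by rw [A.map_neg, hx])

@[simp] theorem fd_neg (x : A.Pt Ω) : A.fd (-x) = A.fd x :=
  le_antisymm (A.fd_neg_le x) (by
    have := A.fd_neg_le (-x)
    rwa [neg_neg] at this)

theorem fd_sub_le (x y : A.Pt Ω) : A.fd (x - y) ≤ A.fd x ⊔ A.fd y := by
  rw [sub_eq_add_neg]
  refine (A.fd_add_le x (-y)).trans ?_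
  rw [fd_neg]

theorem fd_sub_le' {x y : A.Pt Ω} {k : IntermediateField K Ω} (hx : A.fd x ≤ k)
    (hy : A.fd y ≤ k) : A.fd (x - y) ≤ k := (A.fd_sub_le x y).trans (sup_le hx hy)

@[simp] theorem fd_zero : A.fd (0 : A.Pt Ω) = ⊥ :=
  le_bot_iff.mp (A.fd_le (0 : A.Pt (⊥ : IntermediateField K Ω)) (A.map_zero _))

theorem fd_nsmul_le (n : ℕ) (x : A.Pt Ω) : A.fd (n • x) ≤ A.fd x := by
  obtain ⟨x', hx⟩ := A.exists_fd x le_rfl
  exact A.fd_le (n • x') (by rw [A.map_nsmul, hx])

theorem fd_zsmul_le (n : ℤ) (x : A.Pt Ω) : A.fd (n • x) ≤ A.fd x := by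
  obtain ⟨x', hx⟩ := A.exists_fd x le_rfl
  exact A.fd_le (n • x') (by rw [A.map_zsmul, hx])

/-- translation by a point rational over `k` -/
theorem sup_fd_add {k : IntermediateField K Ω} {b : A.Pt Ω} (hb : A.fd b ≤ k) (z : A.Pt Ω) :
    k ⊔ A.fd (z + b) = k ⊔ A.fd z := by
  refine le_antisymm (sup_le le_sup_left ?_) (sup_le le_sup_left ?_)
  · exact A.fd_add_le' le_sup_right (hb.trans le_sup_left)
  · have h : z = (z + b) - b := by rw [add_sub_cancel_right]
    conv_lhs => rw [h]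
    exact A.fd_sub_le' le_sup_right (hb.trans le_sup_left)

theorem sup_fd_sub {k : IntermediateField K Ω} {b : A.Pt Ω} (hb : A.fd b ≤ k) (z : A.Pt Ω) :
    k ⊔ A.fd (z - b) = k ⊔ A.fd z := by
  rw [sub_eq_add_neg]
  exact A.sup_fd_add (by rwa [fd_neg]) z

theorem sup_fd_sub' {k : IntermediateField K Ω} {b : A.Pt Ω} (hb : A.fd b ≤ k) (z : A.Pt Ω) :
    k ⊔ A.fd (b - z) = k ⊔ A.fd z := by
  rw [← neg_sub, fd_neg]
  exact A.sup_fd_sub hb z

/-- transport by an embedding -/
theorem fd_map (φ : Ω →ₐ[K] Ω') (z : A.Pt Ω) : A.fd (A.map φ z) = (A.fd z).map φ := by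
  apply le_antisymm
  · obtain ⟨z', hz'⟩ := A.exists_fd z le_rfl
    let ψ : A.fd z →ₐ[K] (A.fd z).map φ :=
      (φ.comp (A.fd z).val).codRestrict ((A.fd z).map φ).toSubalgebra fun x => ⟨x, x.2, rfl⟩
    refine A.fd_le (A.map ψ z') ?_
    rw [← A.map_comp]
    have : ((A.fd z).map φ).val.comp ψ = φ.comp (A.fd z).val := by ext x; rfl
    rw [this, A.map_comp, hz']
  · -- the field of definition of `map φ z` lies in the range of `φ`
    have h1 : A.fd (A.map φ z) ≤ φ.fieldRange := by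
      let e : Ω →ₐ[K] φ.fieldRange := φ.rangeRestrict
      refine A.fd_le (A.map e z) ?_
      rw [← A.map_comp]
      congr 1
    obtain ⟨w, hw⟩ := A.exists_fd (A.map φ z) le_rfl
    -- pull back
    let k := (A.fd (A.map φ z)).comap φ
    have h2 : ∀ x : A.fd (A.map φ z), ∃ y : k, φ (y : Ω) = (x : Ω') := by
      intro x
      obtain ⟨y, hy⟩ := h1 x.2
      have hy' : φ y = (x : Ω') := hy
      have hyk : y ∈ k := by
        show φ y ∈ A.fd (A.map φ z)
        rw [hy']
        exact x.2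
      exact ⟨⟨y, hyk⟩, hy'⟩
    choose s hs using h2
    let σ : A.fd (A.map φ z) →ₐ[K] k :=
      { toFun := s
        map_one' := Subtype.ext (φ.injective (by
          show φ (s 1 : Ω) = φ (1 : Ω)
          rw [hs]; simp))
        map_mul' := fun a b => Subtype.ext (φ.injective (by
          show φ (s (a * b) : Ω) = φ ((s a : Ω) * (s b : Ω))
          rw [hs, _root_.map_mul, hs, hs]
          rfl))
        map_zero' := Subtype.ext (φ.injective (by
          show φ (s 0 : Ω) = φ (0 : Ω)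
          rw [hs]; simp))
        map_add' := fun a b => Subtype.ext (φ.injective (by
          show φ (s (a + b) : Ω) = φ ((s a : Ω) + (s b : Ω))
          rw [hs, _root_.map_add, hs, hs]
          rfl))
        commutes' := fun c => Subtype.ext (φ.injective (by
          show φ (s (algebraMap K _ c) : Ω) = φ (algebraMap K Ω c)
          rw [hs, φ.commutes]
          rfl)) }
    have h3 : A.map φ (A.map k.val (A.map σ w)) = A.map φ z := by
      rw [← A.map_comp, ← A.map_comp]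
      have : (φ.comp k.val).comp σ = (A.fd (A.map φ z)).val := by
        ext x
        exact hs x
      rw [this, hw]
    have h5 : A.map k.val (A.map σ w) = z := A.map_injective φ h3
    have h6 : A.fd z ≤ k := A.fd_le _ h5
    rintro _ ⟨x, hx, rfl⟩
    exact h6 hx

/-- an embedding which is the identity on the field of definition fixes the point -/
theorem map_congr {φ ψ : Ω →ₐ[K] Ω'} {z : A.Pt Ω} (h : ∀ x ∈ A.fd z, φ x = ψ x) :
    A.map φ z = A.map ψ z := by
  obtain ⟨z', hz'⟩ := A.exists_fd z le_rfl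
  rw [← hz', ← A.map_comp, ← A.map_comp]
  congr 1
  ext x
  exact h x x.2

theorem map_congr_le {φ ψ : Ω →ₐ[K] Ω'} {z : A.Pt Ω} {k : IntermediateField K Ω}
    (hz : A.fd z ≤ k) (h : ∀ x ∈ k, φ x = ψ x) : A.map φ z = A.map ψ z :=
  A.map_congr fun x hx => h x (hz hx)

theorem map_eq_self {φ : Ω →ₐ[K] Ω} {z : A.Pt Ω} {k : IntermediateField K Ω}
    (hz : A.fd z ≤ k) (h : ∀ x ∈ k, φ x = x) : A.map φ z = z := by
  conv_rhs => rw [← A.map_id z]
  exact A.map_congr_le hz h

theorem fd_map_gen (φ : A.F →ₐ[K] Ω) : A.fd (A.map φ A.gen) = φ.fieldRange := by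
  rw [fd_map, A.fd_gen, ← AlgHom.fieldRange_eq_map]

/-- maps to fields preserve inclusion of fields of definition -/
theorem fd_map_le (φ : Ω →ₐ[K] Ω') {z : A.Pt Ω} {k : IntermediateField K Ω} (h : A.fd z ≤ k) :
    A.fd (A.map φ z) ≤ k.map φ := by
  rw [fd_map]
  exact IntermediateField.map_mono φ h

end Fd

end Fermat.Agent.AVn.AVar

end
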