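import Mathlib
import Fermat.Agent.BaseChangeFF.Tensor

/-!
# Free extensions of an algebraically closed field are linearly disjoint
-/

set_option autoImplicit false

universe u

open IntermediateField Module
open scoped TensorProduct

noncomputable section

namespace Fermat.Agent.AVb

section A

variable {K Ω : Type*} [Field K] [Field Ω] [Algebra K Ω]

/-- A homomorphism from a domain `R`, generated by `k` and (the image of) a field `F ⊇ K`, is
injective if it maps a transcendence basis of `F` to a family algebraically independent over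
`k`. -/
theorem injective_of_algebraicIndependent {K k F R Ω : Type*} [Field K] [Field k] [Field F]
    [CommRing R] [IsDomain R] [Field Ω] [Algebra K k] [Algebra K F] [Algebra K R] [Algebra k R]
    [IsScalarTower K k R] [Algebra k Ω] (inr : F →ₐ[K] R)
    (hgen : Algebra.adjoin k (Set.range inr) = ⊤) {ι : Type*} (x : ι → F)
    (hx : Algebra.IsAlgebraic (Algebra.adjoin K (Set.range x)) F)
    (μ : R →ₐ[k] Ω) (hx' : AlgebraicIndependent k (fun i => μ (inr (x i)))) :
    Function.Injective μ := by
  let y : ι → R := fun i => inr (x i)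
  let S : Subalgebra k R := Algebra.adjoin k (Set.range y)
  -- every element is algebraic over `S`
  have hle : ∀ a ∈ Algebra.adjoin K (Set.range x), inr a ∈ S := by
    intro a ha
    have h1 : Algebra.adjoin K (Set.range x) ≤ (S.restrictScalars K).comap inr := by
      rw [Algebra.adjoin_le_iff]
      rintro _ ⟨i, rfl⟩
      exact Algebra.subset_adjoin ⟨i, rfl⟩
    exact h1 ha
  let f : Algebra.adjoin K (Set.range x) →+* S :=
    { toFun := fun a => ⟨inr (a : F), hle a a.2⟩
      map_one' := Subtype.ext (map_one inr)
      map_mul' := fun a b => Subtype.ext (map_mul inr _ _)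
      map_zero' := Subtype.ext (map_zero inr)
      map_add' := fun a b => Subtype.ext (map_add inr _ _) }
  have hinc : Function.Injective inr := inr.toRingHom.injective
  have hf : Function.Injective f := by
    intro a b hab
    have : inr (a : F) = inr (b : F) := congrArg Subtype.val hab
    exact Subtype.ext (hinc this)
  have halg : ∀ t : R, IsAlgebraic S t := by
    intro t
    have ht : t ∈ Algebra.adjoin k (Set.range inr) := by rw [hgen]; trivial
    induction ht using Algebra.adjoin_induction with
    | mem t ht =>
      obtain ⟨a, rfl⟩ := ht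
      exact (hx.isAlgebraic a).ringHom_of_comp_eq f inr hf (by ext; rfl)
    | algebraMap c => exact isAlgebraic_algebraMap (A := R) (algebraMap k S c)
    | add a b _ _ ha hb => exact ha.add hb
    | mul a b _ _ ha hb => exact ha.mul hb
  -- `μ` is injective on `S`
  have hμy : ∀ p : MvPolynomial ι k, μ (MvPolynomial.aeval y p) =
      MvPolynomial.aeval (fun i => μ (inr (x i))) p := by
    intro p
    have : μ.comp (MvPolynomial.aeval y) = MvPolynomial.aeval (fun i => μ (inr (x i))) := by
      ext i
      simp [y]
    exact DFunLike.congr_fun this p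
  have hS : ∀ s : S, μ s = 0 → s = 0 := by
    intro s hs
    have h1 : (s : R) ∈ (MvPolynomial.aeval y : MvPolynomial ι k →ₐ[k] _).range := by
      rw [← Algebra.adjoin_range_eq_range_aeval]
      exact s.2
    obtain ⟨p, hp⟩ := h1
    have hp' : MvPolynomial.aeval y p = (s : R) := hp
    rw [← hp', hμy] at hs
    have hp0 : p = 0 := hx' (by rw [hs, map_zero])
    rw [hp0, map_zero] at hp'
    exact Subtype.ext hp'.symm
  rw [injective_iff_map_eq_zero]
  intro t ht
  by_contra hne
  obtain ⟨q, hq0, hq⟩ := (halg t).exists_nonzero_coeff_and_aeval_eq_zero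
    (mem_nonZeroDivisors_of_ne_zero hne)
  apply hq0
  apply hS
  have h2 : Polynomial.eval₂ ((μ : R →+* Ω).comp (algebraMap S R)) (μ t) q = 0 := by
    rw [Polynomial.aeval_def] at hq
    have := Polynomial.hom_eval₂ q (algebraMap S R) (μ : R →+* Ω) t
    rw [hq, map_zero] at this
    exact this.symm
  rw [ht, Polynomial.eval₂_at_zero] at h2
  exact h2

/-- If `k ⊗ F` is a domain and a transcendence basis of `F` is algebraically independent over
`k`, then `k` and `F` are linearly disjoint. -/
theorem linearDisjoint_of_algebraicIndependent (k F : IntermediateField K Ω)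
    [IsDomain (k ⊗[K] F)] {ι : Type*} (x : ι → F)
    (hx : Algebra.IsAlgebraic (Algebra.adjoin K (Set.range x)) F)
    (hx' : AlgebraicIndependent k (fun i => (x i : Ω))) : k.LinearDisjoint F := by
  rw [linearDisjoint_iff', Subalgebra.linearDisjoint_iff_injective]
  let μ : k ⊗[K] F →ₐ[k] Ω := Algebra.TensorProduct.productLeftAlgHom (Algebra.ofId k Ω) F.val
  have hμ : ∀ a : F, μ (1 ⊗ₜ a) = a := fun a => by
    show Algebra.TensorProduct.productLeftAlgHom (Algebra.ofId k Ω) F.val _ = _
    simp
  refine injective_of_algebraicIndependent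
    (Algebra.TensorProduct.includeRight : F →ₐ[K] k ⊗[K] F) ?_ x hx μ ?_
  · rw [eq_top_iff]
    rintro t -
    induction t using TensorProduct.induction_on with
    | zero => exact Subalgebra.zero_mem _
    | add a b ha hb => exact Subalgebra.add_mem _ ha hb
    | tmul c a =>
      have h1 : c ⊗ₜ[K] a = c • (1 : k) ⊗ₜ[K] a := by
        rw [TensorProduct.smul_tmul', smul_eq_mul, mul_one]
      rw [h1]
      exact Subalgebra.smul_mem _ (Algebra.subset_adjoin (Set.mem_range_self a)) c
  · have : (fun i => μ ((Algebra.TensorProduct.includeRight : F →ₐ[K] k ⊗[K] F) (x i))) =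
        fun i => (x i : Ω) := funext fun i => hμ (x i)
    rw [this]
    exact hx'

/-- A family of `F`, algebraically independent over `K`, stays so over `k` if `k` and `F` are
linearly disjoint. -/
theorem algebraicIndependent_of_linearDisjoint {k F : IntermediateField K Ω}
    (h : k.LinearDisjoint F) {ι : Type*} {x : ι → F} (hx : AlgebraicIndependent K x) :
    AlgebraicIndependent k (fun i => (x i : Ω)) := by
  have h1 : LinearIndependent K (fun s : ι →₀ ℕ =>
      ((MvPolynomial.aeval x : MvPolynomial ι K →ₐ[K] F).toLinearMap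
        (MvPolynomial.basisMonomials ι K s))) :=
    (MvPolynomial.basisMonomials ι K).linearIndependent.map' _ (LinearMap.ker_eq_bot.mpr hx)
  have h2 := h.linearIndependent_right' h1
  have h3 : LinearIndependent k (fun s : ι →₀ ℕ =>
      ((MvPolynomial.aeval (fun i => (x i : Ω)) : MvPolynomial ι k →ₐ[k] Ω).toLinearMap
        (MvPolynomial.basisMonomials ι k s))) := by
    convert h2 using 2 with s
    simp only [Function.comp, AlgHom.toLinearMap_apply, MvPolynomial.coe_basisMonomials,
      MvPolynomial.aeval_monomial, map_one, one_mul]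
    show _ = F.val _
    rw [Finsupp.prod, Finsupp.prod, map_prod]
    simp
  have h4 : (MvPolynomial.basisMonomials ι k).constr k (fun s : ι →₀ ℕ =>
      ((MvPolynomial.aeval (fun i => (x i : Ω)) : MvPolynomial ι k →ₐ[k] Ω).toLinearMap
        (MvPolynomial.basisMonomials ι k s))) =
        (MvPolynomial.aeval (fun i => (x i : Ω)) : MvPolynomial ι k →ₐ[k] Ω).toLinearMap :=
    (MvPolynomial.basisMonomials ι k).constr_self k _
  have h5 := (MvPolynomial.basisMonomials ι k).injective_constr_of_linearIndependent (R₂ := k) h3
  rw [h4] at h5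
  exact h5

/-- elements of `k ⊔ F` are algebraic over `k(x)`, if `F` is algebraic over `K(x)` -/
theorem isAlgebraic_of_mem_sup {k F : IntermediateField K Ω} {ι : Type*} (x : ι → F)
    (hx : Algebra.IsAlgebraic (Algebra.adjoin K (Set.range x)) F) (z : Ω) (hz : z ∈ k ⊔ F) :
    IsAlgebraic (Algebra.adjoin k (Set.range fun i => (x i : Ω))) z := by
  rw [← IntermediateField.isAlgebraic_adjoin_iff]
  set S := IntermediateField.adjoin k (Set.range fun i => (x i : Ω)) with hS
  let M : IntermediateField K Ω :=
    ((algebraicClosure S Ω).restrictScalars k).restrictScalars K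
  have hM : ∀ w, w ∈ M ↔ IsAlgebraic S w := fun w => mem_algebraicClosure_iff
  rw [← hM]
  have h1 : k ≤ M := by
    intro w hw
    rw [hM]
    exact isAlgebraic_algebraMap (R := S) (A := Ω) (algebraMap k S ⟨w, hw⟩)
  have h2 : F ≤ M := by
    intro w hw
    rw [hM]
    have hle : ∀ a ∈ Algebra.adjoin K (Set.range x), (a : Ω) ∈ S := by
      intro a ha
      have h1 : Algebra.adjoin K (Set.range x) ≤
          ((S.restrictScalars K).toSubalgebra).comap F.val := by
        rw [Algebra.adjoin_le_iff]
        rintro _ ⟨i, rfl⟩
        exact IntermediateField.subset_adjoin _ _ ⟨i, rfl⟩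
      exact h1 ha
    let f : Algebra.adjoin K (Set.range x) →+* S :=
      { toFun := fun a => ⟨((a : F) : Ω), hle a a.2⟩
        map_one' := rfl
        map_mul' := fun a b => rfl
        map_zero' := rfl
        map_add' := fun a b => rfl }
    have hf : Function.Injective f := fun a b hab => by
      have h := congrArg Subtype.val hab
      exact Subtype.ext (Subtype.ext h)
    exact (hx.isAlgebraic ⟨w, hw⟩).ringHom_of_comp_eq f F.val hf (by ext; rfl)
  exact sup_le h1 h2 hz

/-- `k ⊔ F` is algebraic over `k(x)`, if `F` is algebraic over `K(x)` -/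
theorem isAlgebraic_sup {k F : IntermediateField K Ω} {ι : Type*} (x : ι → F)
    (hx : Algebra.IsAlgebraic (Algebra.adjoin K (Set.range x)) F)
    (y : ι → extendScalars (le_sup_left : k ≤ k ⊔ F)) (hy : ∀ i, (y i : Ω) = x i) :
    Algebra.IsAlgebraic (Algebra.adjoin k (Set.range y))
      (extendScalars (le_sup_left : k ≤ k ⊔ F)) := by
  constructor
  intro z
  have h1 := isAlgebraic_of_mem_sup x hx (z : Ω) z.2
  have hle : Algebra.adjoin k (Set.range fun i => (x i : Ω)) =
      (Algebra.adjoin k (Set.range y)).map
        (extendScalars (le_sup_left : k ≤ k ⊔ F)).val := by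
    rw [AlgHom.map_adjoin]
    congr 1
    ext w
    simp [hy]
  let e : Algebra.adjoin k (Set.range y) →+*
      Algebra.adjoin k (Set.range fun i => (x i : Ω)) :=
    { toFun := fun a => ⟨((a : extendScalars (le_sup_left : k ≤ k ⊔ F)) : Ω), by
        rw [hle]
        exact ⟨a, a.2, rfl⟩⟩
      map_one' := rfl
      map_mul' := fun a b => rfl
      map_zero' := rfl
      map_add' := fun a b => rfl }
  have he : Function.Surjective e := by
    rintro ⟨a, ha⟩
    rw [hle] at ha
    obtain ⟨b, hb, hb'⟩ := ha
    exact ⟨⟨b, hb⟩, Subtype.ext hb'⟩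
  exact IsAlgebraic.of_ringHom_of_comp_eq (f := e)
    (g := (extendScalars (le_sup_left : k ≤ k ⊔ F)).val) h1 he
    (extendScalars (le_sup_left : k ≤ k ⊔ F)).val.toRingHom.injective (by ext; rfl)

end A

section B

variable {K Ω : Type u} [Field K] [Field Ω] [Algebra K Ω]

open Cardinal

/-- the canonical lift of a family of `F` to `k ⊔ F` -/
def liftSup {k F : IntermediateField K Ω} {ι : Type*} (x : ι → F) :
    ι → extendScalars (le_sup_left : k ≤ k ⊔ F) :=
  fun i => ⟨(x i : Ω), (le_sup_right : F ≤ k ⊔ F) (x i).2⟩

theorem trdeg_sup_le (k F : IntermediateField K Ω) :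
    Algebra.trdeg k (extendScalars (le_sup_left : k ≤ k ⊔ F)) ≤ Algebra.trdeg K F := by
  obtain ⟨s, hs⟩ := exists_isTranscendenceBasis K F
  have h1 := isAlgebraic_sup (k := k) (Subtype.val : s → F) (by simpa using hs.isAlgebraic)
    (liftSup _) (fun i => rfl)
  rw [← hs.cardinalMk_eq_trdeg]
  refine (Algebra.IsAlgebraic.trdeg_le_cardinalMk k
    (Set.range (liftSup (k := k) (Subtype.val : s → F)))).trans ?_
  exact Cardinal.mk_range_le

theorem algebraicIndependent_of_trdeg_le {k F : IntermediateField K Ω}
    (hF : Algebra.trdeg K F < ℵ₀)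
    (h : Algebra.trdeg K F ≤ Algebra.trdeg k (extendScalars (le_sup_left : k ≤ k ⊔ F)))
    {ι : Type u} {x : ι → F} (hx : IsTranscendenceBasis K x) :
    AlgebraicIndependent k (fun i => (x i : Ω)) := by
  have h1 := isAlgebraic_sup (k := k) x hx.isAlgebraic (liftSup _) (fun i => rfl)
  have h2 : Finite ι := by
    rw [← Cardinal.lt_aleph0_iff_finite, hx.cardinalMk_eq_trdeg]
    exact hF
  have h3 := (Algebra.IsAlgebraic.isTranscendenceBasis_of_le_trdeg_of_finite k
    (liftSup (k := k) x) (by rw [hx.cardinalMk_eq_trdeg]; exact h)).1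
  exact h3.map' (f := (extendScalars (le_sup_left : k ≤ k ⊔ F)).val) Subtype.val_injective

/-- If `k` and `F` are free over the algebraically closed field `K`, they are linearly
disjoint. -/
theorem linearDisjoint_of_trdeg_le [IsAlgClosed K] {k F : IntermediateField K Ω}
    (hF : Algebra.trdeg K F < ℵ₀)
    (h : Algebra.trdeg K F ≤ Algebra.trdeg k (extendScalars (le_sup_left : k ≤ k ⊔ F))) :
    k.LinearDisjoint F := by
  obtain ⟨s, hs⟩ := exists_isTranscendenceBasis K F
  exact linearDisjoint_of_algebraicIndependent k F (Subtype.val : s → F)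
    (by simpa using hs.isAlgebraic) (algebraicIndependent_of_trdeg_le hF h hs)

theorem trdeg_sup_eq {k F : IntermediateField K Ω} (h : k.LinearDisjoint F) :
    Algebra.trdeg k (extendScalars (le_sup_left : k ≤ k ⊔ F)) = Algebra.trdeg K F := by
  refine le_antisymm (trdeg_sup_le k F) ?_
  obtain ⟨s, hs⟩ := exists_isTranscendenceBasis K F
  have h1 := algebraicIndependent_of_linearDisjoint h hs.1
  have h2 : AlgebraicIndependent k (liftSup (k := k) (Subtype.val : s → F)) := by
    have h3 : (fun i : s => ((i : F) : Ω)) =
        (extendScalars (le_sup_left : k ≤ k ⊔ F)).val ∘ liftSup (k := k) (Subtype.val : s → F) :=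
      rfl
    rw [h3] at h1
    exact ((extendScalars (le_sup_left : k ≤ k ⊔ F)).val.algebraicIndependent_iff
      Subtype.val_injective).mp h1
  rw [← hs.cardinalMk_eq_trdeg]
  exact h2.cardinalMk_le_trdeg

end B

end Fermat.Agent.AVb

end
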